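/-
M3 part B (S20): Laurent orders at the cusps and vanishing at `i∞`.
If `W · V = U` with `U`, `V` meromorphic at `i∞` (in `q`, or in `s = q^{1/N}`) and the Laurent
order of `V` is smaller than that of `U`, then `W → 0` at `i∞`.
-/
import Mathlib
import Fermat.Agent.S24.FamilyInfty
import Fermat.Agent.S24.FamilyFinite

set_option autoImplicit false

open UpperHalfPlane Filter Topology Function
open scoped Manifold
open Fermat.Agent.S23.QF (IsQFun)
open Fermat.Agent.S23 (alphaN)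

namespace Fermat.Agent.S20

open Fermat.Agent.S24

/-- a `q`-function whose `q`-expansion has order `n` is `qⁿ` times a `q`-function which does not
vanish at `i∞` -/
theorem ld_isQFun_factor : ∀ (n : ℕ) {G : ℍ → ℂ}, IsQFun G → (qExpansion 1 G).order = n →
    ∃ G' : ℍ → ℂ, IsQFun G' ∧ valueAtInfty G' ≠ 0 ∧ G = qH ^ n * G'
  | 0, G, hG, h => by
    refine ⟨G, hG, ?_, by rw [pow_zero, one_mul]⟩
    rw [← qExpansion_coeff_zero one_pos hG.analyticAt hG.periodic']
    exact (PowerSeries.order_eq_nat.mp h).1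
  | n + 1, G, hG, h => by
    have h0 : valueAtInfty G = 0 := by
      rw [← qExpansion_coeff_zero one_pos hG.analyticAt hG.periodic']
      exact (PowerSeries.order_eq_nat.mp h).2 0 (Nat.succ_pos n)
    have hG1 : IsQFun (G / qH) := IsQFun.div_qH hG h0
    have hmul : G = qH ^ 1 * (G / qH) := by
      ext z
      simp only [pow_one, Pi.mul_apply, Pi.div_apply]
      rw [mul_div_cancel₀ _ (qH_ne_zero z)]
    have hexp : qExpansion 1 G = PowerSeries.X ^ 1 * qExpansion 1 (G / qH) := by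
      conv_lhs => rw [hmul]
      exact gm_qExpansion_qH_pow_mul hG1 1
    have hord : (qExpansion 1 (G / qH)).order = n := by
      rw [hexp, pow_one, PowerSeries.order_mul, PowerSeries.order_X] at h
      have h2 : (1 : ℕ∞) + (qExpansion 1 (G / qH)).order = 1 + (n : ℕ∞) := by
        rw [h]; push_cast; ring
      exact ENat.add_right_injective_of_ne_top (by simp) h2
    obtain ⟨G', hG', hv, hG'e⟩ := ld_isQFun_factor n hG1 hord
    refine ⟨G', hG', hv, ?_⟩
    conv_lhs => rw [hmul, hG'e]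
    rw [← mul_assoc, ← pow_add, add_comm]

/-- **leading form at `i∞`**: a nonzero function meromorphic at `i∞` is `q^k` times a
`q`-function not vanishing at `i∞`, where `k` is the order of its Laurent expansion -/
theorem ld_leading_form {g : ℍ → ℂ} (hg : gm_IsMerQ g) (hg0 : g ≠ 0) :
    ∃ G : ℍ → ℂ, IsQFun G ∧ valueAtInfty G ≠ 0 ∧ ∀ τ, g τ = qH τ ^ (gm_lq g).order * G τ := by
  obtain ⟨m, hm⟩ := hg
  have hG0 : qH ^ m * g ≠ 0 := by
    intro h
    apply hg0
    ext τ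
    have := congrFun h τ
    simp only [Pi.mul_apply, Pi.pow_apply, Pi.zero_apply, mul_eq_zero] at this
    rcases this with h1 | h1
    · exact absurd h1 (pow_ne_zero m (qH_ne_zero τ))
    · exact h1
  have hP : qExpansion 1 (qH ^ m * g) ≠ 0 := fun h => hG0 (hm.qExpansion_eq_zero_iff.mp h)
  obtain ⟨n0, hn0⟩ := ENat.ne_top_iff_exists.mp
    (fun h => hP (PowerSeries.order_eq_top.mp h))
  obtain ⟨G', hG', hv, hG'e⟩ := ld_isQFun_factor n0 hm hn0.symm
  refine ⟨G', hG', hv, fun τ => ?_⟩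
  have hord : (gm_lq g).order = -(m : ℤ) + n0 := by
    rw [gm_lq_eq hm, HahnSeries.order_mul (gm_single_ne_zero _)
      (fun h => hP (HahnSeries.ofPowerSeries_injective (h.trans (map_zero _).symm))),
      HahnSeries.order_single one_ne_zero, ff_ofPowerSeries_order _ hn0.symm]
  have h1 := congrFun hG'e τ
  simp only [Pi.mul_apply, Pi.pow_apply] at h1
  have hq := qH_ne_zero τ
  rw [hord, zpow_add₀ hq, zpow_neg, zpow_natCast, zpow_natCast, mul_assoc, ← h1,
    inv_mul_cancel_left₀ (pow_ne_zero m hq)]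

/-- **vanishing at `i∞` from Laurent orders** (`1`-periodic case) -/
theorem ld_tendsto_zero_of_order_lt {U V W : ℍ → ℂ} (hU : gm_IsMerQ U) (hV : gm_IsMerQ V)
    (hU0 : U ≠ 0) (hV0 : V ≠ 0) (hWV : ∀ τ, W τ * V τ = U τ)
    (hord : (gm_lq V).order < (gm_lq U).order) : Tendsto W atImInfty (𝓝 0) := by
  obtain ⟨Gu, hGu, -, hUe⟩ := ld_leading_form hU hU0
  obtain ⟨Gv, hGv, hcv, hVe⟩ := ld_leading_form hV hV0
  set ku := (gm_lq U).order
  set kv := (gm_lq V).order
  obtain ⟨d, hd⟩ : ∃ d : ℕ, ku - kv = (d : ℤ) + 1 :=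
    ⟨(ku - kv - 1).toNat, by rw [Int.toNat_of_nonneg (by omega)]; ring⟩
  have hGv_t := IsQFun.tendsto_valueAtInfty hGv
  have hGu_t := IsQFun.tendsto_valueAtInfty hGu
  have hne : ∀ᶠ τ in atImInfty, Gv τ ≠ 0 := hGv_t.eventually_ne hcv
  have hlim : Tendsto (fun τ => qH τ ^ (d + 1) * (Gu τ / Gv τ)) atImInfty (𝓝 0) := by
    have h1 := (qH_tendsto.pow (d + 1)).mul (hGu_t.div hGv_t hcv)
    rw [zero_pow (Nat.succ_ne_zero d), zero_mul] at h1
    exact h1
  refine hlim.congr' ?_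
  filter_upwards [hne] with τ hτ
  have hq := qH_ne_zero τ
  have hVτ : V τ ≠ 0 := by
    rw [hVe τ]
    exact mul_ne_zero (zpow_ne_zero _ hq) hτ
  have h1 : W τ = U τ / V τ := by rw [← hWV τ, mul_div_cancel_right₀ _ hVτ]
  rw [h1, hUe τ, hVe τ]
  have h2 : ku = kv + ((d : ℤ) + 1) := by omega
  rw [h2, zpow_add₀ hq, show ((d : ℤ) + 1) = ((d + 1 : ℕ) : ℤ) by push_cast; ring, zpow_natCast]
  field_simp

variable (N : ℕ) [NeZero N]

theorem ld_im_alphaN_inv_smul (z : ℍ) : ((alphaN N)⁻¹ • z : ℍ).im = (1 / (N : ℝ)) * z.im := by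
  have h := br_im_alphaN_smul N ((alphaN N)⁻¹ • z)
  rw [smul_inv_smul] at h
  have hN : (N : ℝ) ≠ 0 := by exact_mod_cast NeZero.ne N
  rw [h]
  field_simp

theorem ld_fi_P_zero : fi_P N (0 : ℍ → ℂ) := gm_IsMerQ.zero

theorem ld_germ_zero : fi_germ N (0 : ℍ → ℂ) = 0 := gm_lq_zero

theorem ld_germ_ne_zero {X : ℍ → ℂ} (hX : fi_P N X) (hX0 : X ≠ 0) : fi_germ N X ≠ 0 := by
  intro h
  exact hX0 ((fi_isGerm N).inj X 0 hX (ld_fi_P_zero N) (h.trans (ld_germ_zero N).symm))

theorem ld_fi_P_mul {X Y : ℍ → ℂ} (hX : fi_P N X) (hY : fi_P N Y) : fi_P N (X * Y) :=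
  gm_IsMerQ.mul hX hY

/-- **vanishing at `i∞` from Laurent orders in `s = q^{1/N}`** -/
theorem ld_isZeroAtImInfty_of_order_lt {U V W : ℍ → ℂ} (hU : fi_P N U) (hV : fi_P N V)
    (hU0 : U ≠ 0) (hV0 : V ≠ 0) (hWV : ∀ z, W z * V z = U z)
    (hord : (fi_germ N V).order < (fi_germ N U).order) : IsZeroAtImInfty W := by
  have hsurj : ∀ {X : ℍ → ℂ}, X ≠ 0 → (fun τ => X (alphaN N • τ)) ≠ 0 := by
    intro X hX h
    apply hX
    ext z
    have := congrFun h ((alphaN N)⁻¹ • z)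
    simpa using this
  have h1 : Tendsto (fun τ => W (alphaN N • τ)) atImInfty (𝓝 0) :=
    ld_tendsto_zero_of_order_lt hU hV (hsurj hU0) (hsurj hV0) (fun τ => hWV _) hord
  have h2 : Tendsto (fun z : ℍ => (alphaN N)⁻¹ • z) atImInfty atImInfty :=
    tendsto_atImInfty_of_im_eq (c := 1 / (N : ℝ))
      (by have : (0 : ℝ) < N := by exact_mod_cast Nat.pos_of_ne_zero (NeZero.ne N)
          positivity) (ld_im_alphaN_inv_smul N)
  have h3 := h1.comp h2
  refine h3.congr fun z => ?_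
  simp only [comp_apply, smul_inv_smul]

end Fermat.Agent.S20
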