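/-
M3 part B (S20): order-based division of holomorphic functions on the upper half plane.
If `ord_z den ≤ ord_z num` at every point `z` of `ℍ`, then `num / den` extends to a holomorphic
function on `ℍ`.
-/
import Mathlib
import Fermat.Agent.S24.JLocal

set_option autoImplicit false

open UpperHalfPlane Filter Topology Function
open scoped Manifold

namespace Fermat.Agent.S20

open Fermat.Agent.S24

/-- local form of the quotient of two analytic functions when the order of the denominator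
does not exceed the order of the numerator -/
theorem ld_local_quotient {N0 D0 : ℂ → ℂ} {z0 : ℂ} (hN : AnalyticAt ℂ N0 z0)
    (hD : AnalyticAt ℂ D0 z0) (hfin : analyticOrderAt D0 z0 ≠ ⊤)
    (hle : analyticOrderAt D0 z0 ≤ analyticOrderAt N0 z0) :
    ∃ q : ℂ → ℂ, AnalyticAt ℂ q z0 ∧ (∀ᶠ z in 𝓝[≠] z0, N0 z / D0 z = q z) ∧
      (∀ᶠ z in 𝓝 z0, q z * D0 z = N0 z) := by
  obtain ⟨k, hk⟩ := ENat.ne_top_iff_exists.mp hfin
  obtain ⟨u, hu, hu0, hDu⟩ := (hD.analyticOrderAt_eq_natCast).mp hk.symm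
  obtain ⟨v, hv, hNv⟩ := (natCast_le_analyticOrderAt hN).mp (hk ▸ hle)
  have hune : ∀ᶠ z in 𝓝 z0, u z ≠ 0 := hu.continuousAt.eventually_ne hu0
  refine ⟨fun z => v z / u z, hv.div hu hu0, ?_, ?_⟩
  · rw [eventually_nhdsWithin_iff]
    filter_upwards [hDu, hNv, hune] with z h1 h2 h3 hz
    have hz' : (z - z0) ^ k ≠ 0 := pow_ne_zero k (sub_ne_zero.mpr hz)
    rw [h1, h2, smul_eq_mul, smul_eq_mul, mul_div_mul_left _ _ hz']
  · filter_upwards [hDu, hNv, hune] with z h1 h2 h3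
    rw [h1, h2, smul_eq_mul, smul_eq_mul]
    field_simp

/-- the quotient `N0 / D0` with its removable singularities removed -/
noncomputable def ld_quot (N0 D0 : ℂ → ℂ) (z : ℂ) : ℂ :=
  limUnder (𝓝[≠] z) (fun w => N0 w / D0 w)

theorem ld_quot_eventuallyEq {N0 D0 q : ℂ → ℂ} {z0 : ℂ} (hq : AnalyticAt ℂ q z0)
    (h : ∀ᶠ z in 𝓝[≠] z0, N0 z / D0 z = q z) : ld_quot N0 D0 =ᶠ[𝓝 z0] q := by
  rw [eventually_nhdsWithin_iff] at h
  have h1 : ∀ᶠ z in 𝓝 z0, (z ≠ z0 → N0 z / D0 z = q z) ∧ ContinuousAt q z := by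
    filter_upwards [h, hq.eventually_analyticAt] with z hz1 hz2
    exact ⟨hz1, hz2.continuousAt⟩
  have h2 := eventually_eventually_nhds.mpr h1
  filter_upwards [h2, h1] with y hy hy'
  have h3 : ∀ᶠ z in 𝓝[≠] y, N0 z / D0 z = q z := by
    rw [eventually_nhdsWithin_iff]
    by_cases hyz : y = z0
    · subst hyz
      filter_upwards [hy] with z hz hzy
      exact hz.1 hzy
    · have : ∀ᶠ z in 𝓝 y, z ≠ z0 := continuousAt_id.eventually_ne hyz
      filter_upwards [hy, this] with z hz hz0 _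
      exact hz.1 hz0
  have h4 : Tendsto q (𝓝[≠] y) (𝓝 (q y)) := hy'.2.tendsto.mono_left nhdsWithin_le_nhds
  have h5 : Tendsto (fun w => N0 w / D0 w) (𝓝[≠] y) (𝓝 (q y)) :=
    h4.congr' (h3.mono fun z hz => hz.symm)
  exact h5.limUnder_eq

/-- **order-based division on the upper half plane** -/
theorem ld_exists_quotient {num den : ℍ → ℂ} (hnum : MDiff num) (hden : MDiff den)
    (hne : ∃ z, den z ≠ 0)
    (hord : ∀ z0 : ℍ, analyticOrderAt (den ∘ ofComplex) (z0 : ℂ) ≤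
      analyticOrderAt (num ∘ ofComplex) (z0 : ℂ)) :
    ∃ f : ℍ → ℂ, MDiff f ∧ ∀ z, f z * den z = num z := by
  obtain ⟨z1, hz1⟩ := hne
  set N0 : ℂ → ℂ := num ∘ ofComplex with hN0
  set D0 : ℂ → ℂ := den ∘ ofComplex with hD0
  have key : ∀ z0 : ℍ, ∃ q : ℂ → ℂ, AnalyticAt ℂ q (z0 : ℂ) ∧
      ld_quot N0 D0 =ᶠ[𝓝 (z0 : ℂ)] q ∧ q (z0 : ℂ) * D0 (z0 : ℂ) = N0 (z0 : ℂ) := by
    intro z0
    obtain ⟨q, hq, hq1, hq2⟩ := ld_local_quotient (jl_analyticAt_comp_ofComplex hnum z0)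
      (jl_analyticAt_comp_ofComplex hden z0) (jl_order_ne_top hden hz1 z0) (hord z0)
    exact ⟨q, hq, ld_quot_eventuallyEq hq hq1, hq2.self_of_nhds⟩
  refine ⟨fun z => ld_quot N0 D0 (z : ℂ), ?_, fun z => ?_⟩
  · rw [UpperHalfPlane.mdifferentiable_iff]
    intro w hw
    obtain ⟨q, hq, hq1, -⟩ := key ⟨w, hw⟩
    have h1 : ((fun z : ℍ => ld_quot N0 D0 (z : ℂ)) ∘ ofComplex) =ᶠ[𝓝 w] q := by
      have h2 : ∀ᶠ z in 𝓝 w, 0 < z.im := isOpen_upperHalfPlaneSet.mem_nhds hw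
      have h3 : ld_quot N0 D0 =ᶠ[𝓝 w] q := hq1
      filter_upwards [h2, h3] with z hz hz'
      simp only [comp_apply, ofComplex_apply_of_im_pos hz]
      exact hz'
    exact (h1.differentiableAt_iff.mpr hq.differentiableAt).differentiableWithinAt
  · obtain ⟨q, hq, hq1, hq2⟩ := key z
    have h1 : ld_quot N0 D0 (z : ℂ) = q (z : ℂ) := hq1.self_of_nhds
    have h2 : D0 (z : ℂ) = den z := by simp [hD0]
    have h3 : N0 (z : ℂ) = num z := by simp [hN0]
    rw [← h2, ← h3]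
    show ld_quot N0 D0 (z : ℂ) * D0 (z : ℂ) = N0 (z : ℂ)
    rw [h1, hq2]

end Fermat.Agent.S20
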