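/-
M3 part B (S20): from a quotient `A / B` of weak modular functions of level `N` whose orders
at every point of the upper half plane and at every cusp are those of a regular differential
`(A / B) dj`, construct the weight `2` cusp form `(A / B) · D j` of `Γ₀(N)`.
-/
import Mathlib
import Fermat.Agent.S20.Dict.Quotient
import Fermat.Agent.S20.Dict.CuspOrder

set_option autoImplicit false

open UpperHalfPlane ModularForm Filter Topology Function Derivative CongruenceSubgroup
open scoped MatrixGroups Manifold Real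
open Fermat.Agent.S23.QF (IsQFun)
open Fermat.Agent.S23 (alphaN)

namespace Fermat.Agent.S20

open Fermat.Agent.S24

/-! ### `D j`: local orders and the expansion at `i∞` -/

theorem ld_mdiff_D_kleinJ : MDiff (D kleinJ) :=
  normalizedDerivOfComplex_mdifferentiable kleinJ_mdiff

/-- the order of `D j` at `z0` is one less than the local degree of `j` at `z0` -/
theorem ld_order_D_kleinJ (z0 : ℍ) :
    analyticOrderAt (D kleinJ ∘ ofComplex) (z0 : ℂ) + 1 = jl_ordJ z0 := by
  have hJ := jl_analyticAt_comp_ofComplex kleinJ_mdiff z0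
  have he : (D kleinJ ∘ ofComplex) =ᶠ[𝓝 (z0 : ℂ)]
      (fun _ : ℂ => (2 * (π : ℂ) * Complex.I)⁻¹) * deriv (kleinJ ∘ ofComplex) := by
    filter_upwards [isOpen_upperHalfPlaneSet.mem_nhds z0.im_pos] with w hw
    have hw' : 0 < w.im := hw
    simp only [comp_apply, Pi.mul_apply, normalizedDerivOfComplex,
      ofComplex_apply_of_im_pos hw']
  have hc : analyticOrderAt (fun _ : ℂ => (2 * (π : ℂ) * Complex.I)⁻¹) (z0 : ℂ) = 0 := by
    rw [analyticAt_const.analyticOrderAt_eq_zero]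
    exact inv_ne_zero Complex.two_pi_I_ne_zero
  rw [analyticOrderAt_congr he, analyticOrderAt_mul analyticAt_const hJ.deriv, hc, zero_add,
    hJ.analyticOrderAt_deriv_add_one]
  unfold jl_ordJ
  simp only [comp_apply, ofComplex_apply]

theorem ld_qH_mul_D_kleinJ : qH * D kleinJ = D (qH * kleinJ) - qH * kleinJ := by
  ext z
  have h := jl_D_kleinJ_mul_qH z
  simp only [Pi.mul_apply, Pi.sub_apply] at h ⊢
  rw [← h, mul_comm]

theorem ld_isQFun_qH_mul_D_kleinJ : IsQFun (qH * D kleinJ) := by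
  rw [ld_qH_mul_D_kleinJ]
  exact (jl_isQFun_D isQFun_qH_mul_kleinJ).sub isQFun_qH_mul_kleinJ

theorem ld_tendsto_qH_mul_D_kleinJ : Tendsto (qH * D kleinJ) atImInfty (𝓝 (-1)) := by
  rw [ld_qH_mul_D_kleinJ]
  have h := (jl_tendsto_D isQFun_qH_mul_kleinJ).sub tendsto_qH_mul_kleinJ
  rw [zero_sub] at h
  exact h

theorem ld_D_kleinJ_ne_zero : D kleinJ ≠ 0 := by
  intro h
  have h1 := ld_tendsto_qH_mul_D_kleinJ
  rw [h, mul_zero] at h1
  have h2 : Tendsto (0 : ℍ → ℂ) atImInfty (𝓝 0) := tendsto_const_nhds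
  have := tendsto_nhds_unique h1 h2
  norm_num at this

variable (N : ℕ) [NeZero N]

theorem ld_qH_pow_mul_D_kleinJ_alphaN :
    (qH ^ N * fun τ => D kleinJ (alphaN N • τ)) = fun τ => (qH * D kleinJ) (alphaN N • τ) := by
  ext τ
  simp only [Pi.mul_apply, Pi.pow_apply, br_qH_alphaN_smul]

theorem ld_isQFun_D_kleinJ_alphaN : IsQFun (qH ^ N * fun τ => D kleinJ (alphaN N • τ)) := by
  rw [ld_qH_pow_mul_D_kleinJ_alphaN]
  exact br_isQFun_comp_alphaN N ld_isQFun_qH_mul_D_kleinJ

theorem ld_fi_P_D_kleinJ : fi_P N (D kleinJ) := ⟨N, ld_isQFun_D_kleinJ_alphaN N⟩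

theorem ld_order_germ_D_kleinJ : (fi_germ N (D kleinJ)).order = -(N : ℤ) := by
  have ht : Tendsto (qH ^ N * fun τ => D kleinJ (alphaN N • τ)) atImInfty (𝓝 (-1)) := by
    rw [ld_qH_pow_mul_D_kleinJ_alphaN]
    exact ld_tendsto_qH_mul_D_kleinJ.comp (tendsto_atImInfty_of_im_eq
      (by exact_mod_cast Nat.pos_of_ne_zero (NeZero.ne N)) (br_im_alphaN_smul N))
  exact (gm_lq_order_of_tendsto (ld_isQFun_D_kleinJ_alphaN N) (by norm_num) ht).1

theorem ld_germ_D_kleinJ_ne_zero : fi_germ N (D kleinJ) ≠ 0 := by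
  intro h
  have h1 := ld_order_germ_D_kleinJ N
  rw [h, HahnSeries.order_zero] at h1
  have : (N : ℤ) ≠ 0 := by exact_mod_cast NeZero.ne N
  omega

/-! ### The cusp form -/

theorem ld_slash_zero_apply (u : ℍ → ℂ) (γ : SL(2, ℤ)) (z : ℍ) :
    (u ∣[(0 : ℤ)] γ) z = u (γ • z) := by
  rw [ModularForm.SL_slash_apply]
  simp

variable {N}

/-- translate of the defining relation `F · B = A · D j` under `γ ∈ SL(2,ℤ)` -/
theorem ld_slash_relation {A B F : ℍ → ℂ} (hmul : ∀ z, F z * B z = A z * D kleinJ z)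
    (γ : SL(2, ℤ)) (z : ℍ) :
    (F ∣[(2 : ℤ)] γ) z * B (γ • z) = A (γ • z) * D kleinJ z := by
  have h0 : F * B = A * D kleinJ := funext hmul
  have h1 : (F * B) ∣[((2 : ℤ) + 0)] γ = (A * D kleinJ) ∣[((0 : ℤ) + 2)] γ := by
    rw [h0, add_zero, zero_add]
  rw [mul_slash_SL2, mul_slash_SL2, jl_D_kleinJ_slash] at h1
  have h2 := congrFun h1 z
  simp only [Pi.mul_apply, ld_slash_zero_apply] at h2
  exact h2

/-- **(LD1)** the cusp form attached to a quotient of weak modular functions with the orders of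
a regular differential -/
theorem ld_exists_cuspForm {A B : ℍ → ℂ} (hA : IsWeakModFun N A) (hB : IsWeakModFun N B)
    (hB0 : B ≠ 0)
    (hfin : ∀ z0 : ℍ, analyticOrderAt (B ∘ ofComplex) (z0 : ℂ) + 1 ≤
      analyticOrderAt (A ∘ ofComplex) (z0 : ℂ) + jl_ordJ z0)
    (hcusp : ∀ γ : SL(2, ℤ), (fi_germ N (fun z => B (γ • z))).order + N + 1 ≤
      (fi_germ N (fun z => A (γ • z))).order) :
    ∃ f : CuspForm (Gamma0 N) 2, ∀ z, f z * B z = A z * D kleinJ z := by
  by_cases hA0 : A = 0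
  · exact ⟨0, fun z => by simp [hA0]⟩
  have hne : ∃ z, B z ≠ 0 := by
    by_contra h
    push Not at h
    exact hB0 (funext h)
  have hDJ := ld_mdiff_D_kleinJ
  have hnum : MDiff (A * D kleinJ) := hA.mdiff.mul hDJ
  have hord : ∀ z0 : ℍ, analyticOrderAt (B ∘ ofComplex) (z0 : ℂ) ≤
      analyticOrderAt ((A * D kleinJ) ∘ ofComplex) (z0 : ℂ) := by
    intro z0
    have e : (A * D kleinJ) ∘ ofComplex = (A ∘ ofComplex) * (D kleinJ ∘ ofComplex) := rfl
    rw [e, analyticOrderAt_mul (jl_analyticAt_comp_ofComplex hA.mdiff z0)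
      (jl_analyticAt_comp_ofComplex hDJ z0)]
    have h := hfin z0
    rw [← ld_order_D_kleinJ z0, ← add_assoc] at h
    exact (ENat.add_le_add_iff_right ENat.one_ne_top).mp h
  obtain ⟨F, hF, hFmul⟩ := ld_exists_quotient hnum hB.mdiff hne hord
  have hFmul' : ∀ z, F z * B z = A z * D kleinJ z := hFmul
  -- invariance
  have hinv : ∀ γ ∈ Gamma0 N, F ∣[(2 : ℤ)] γ = F := by
    intro γ hγ
    have h1 : ∀ z, (F ∣[(2 : ℤ)] γ) z * B z = A z * D kleinJ z := by
      intro z
      have := ld_slash_relation hFmul' γ z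
      rwa [hB.inv γ hγ, hA.inv γ hγ] at this
    have h2 : B * (F ∣[(2 : ℤ)] γ - F) = 0 := by
      ext z
      simp only [Pi.mul_apply, Pi.sub_apply, Pi.zero_apply]
      have e1 : B z * (F ∣[(2 : ℤ)] γ) z = A z * D kleinJ z := by rw [mul_comm]; exact h1 z
      have e2 : B z * F z = A z * D kleinJ z := by rw [mul_comm]; exact hFmul' z
      rw [mul_sub, e1, e2, sub_self]
    have hFs : MDiff (F ∣[(2 : ℤ)] γ) := hF.slash 2 _
    rcases (UpperHalfPlane.mul_eq_zero_iff hB.mdiff (hFs.sub hF)).1 h2 with h | h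
    · obtain ⟨τ₀, hτ₀⟩ := hne
      exact absurd (congrFun h τ₀) hτ₀
    · exact sub_eq_zero.1 h
  refine ⟨{ toFun := F, slash_action_eq' := ?_, holo' := hF, zero_at_cusps' := ?_ }, hFmul'⟩
  · rintro γ ⟨γ', hγ', rfl⟩
    exact hinv γ' hγ'
  · intro c' hc'
    have hc'' := (Subgroup.IsArithmetic.isCusp_iff_isCusp_SL2Z _).1 hc'
    rw [OnePoint.isZeroAt_iff_forall_SL2Z hc'']
    intro γ _
    -- vanishing of `F ∣[2] γ` at `i∞`
    have hV : fi_P N (fun z => B (γ • z)) := fi_adm N hB γ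
    have hAγ : fi_P N (fun z => A (γ • z)) := fi_adm N hA γ
    have hU : fi_P N ((fun z => A (γ • z)) * D kleinJ) :=
      ld_fi_P_mul N hAγ (ld_fi_P_D_kleinJ N)
    have hAγ0 : (fun z => A (γ • z)) ≠ 0 := by
      intro h
      apply hA0
      ext z
      have := congrFun h (γ⁻¹ • z)
      simpa using this
    have hV0 : (fun z => B (γ • z)) ≠ 0 := by
      intro h
      apply hB0
      ext z
      have := congrFun h (γ⁻¹ • z)
      simpa using this
    have hgA : fi_germ N (fun z => A (γ • z)) ≠ 0 := ld_germ_ne_zero N hAγ hAγ0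
    have hgU : fi_germ N ((fun z => A (γ • z)) * D kleinJ) =
        fi_germ N (fun z => A (γ • z)) * fi_germ N (D kleinJ) :=
      (fi_isGerm N).mul _ _ hAγ (ld_fi_P_D_kleinJ N)
    have hU0 : ((fun z => A (γ • z)) * D kleinJ) ≠ 0 := by
      intro h
      have h0 : fi_germ N ((fun z => A (γ • z)) * D kleinJ) = 0 := by
        rw [h]
        exact ld_germ_zero N
      rw [hgU] at h0
      exact mul_ne_zero hgA (ld_germ_D_kleinJ_ne_zero N) h0
    refine ld_isZeroAtImInfty_of_order_lt N hU hV hU0 hV0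
      (fun z => ld_slash_relation hFmul' γ z) ?_
    rw [hgU, HahnSeries.order_mul hgA (ld_germ_D_kleinJ_ne_zero N), ld_order_germ_D_kleinJ]
    have := hcusp γ
    omega

end Fermat.Agent.S20
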