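/-
M3 Part B (S20), dictionary block (LD3): cusp forms `f_i` of weight 2 with
`f_i · an(b_i) = an(a_i) · D j` are `ℂ`-linearly independent as soon as the quotients
`a_i / b_i` are `Q̄`-linearly independent in the function field `Q̄(X₀(N))`.
-/
import Mathlib
import Fermat.Agent.S24.Bridge.Degree
import Fermat.Agent.S24.JLocal

set_option autoImplicit false

open UpperHalfPlane ModularForm EisensteinSeries Filter Topology Function Derivative
open scoped MatrixGroups Manifold Real
open CongruenceSubgroup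
open Fermat.Agent.S24 Fermat.Agent.S24.Br

namespace Fermat.Agent.S20

local notation "Dd" => Derivative.normalizedDerivOfComplex

/-- `D j` is not identically zero. -/
theorem ldl_D_kleinJ_ne_zero : (Dd kleinJ : ℍ → ℂ) ≠ 0 := by
  obtain ⟨z, hz⟩ := jl_exists_kleinJ_eq 1
  have h4 : E₄ z ≠ 0 := by
    intro h
    have := (jl_kleinJ_eq_zero_iff z).mpr h
    rw [hz] at this
    exact one_ne_zero this
  have h6 : E₆ z ≠ 0 := by
    intro h
    have := (jl_kleinJ_eq_1728_iff z).mpr h
    rw [hz] at this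
    norm_num at this
  intro h0
  have h := jl_discriminant_mul_D_kleinJ z
  rw [h0] at h
  simp only [Pi.zero_apply, mul_zero] at h
  have : E₄ z ^ 2 * E₆ z = 0 := by
    have := h.symm
    simpa using this
  rcases mul_eq_zero.mp this with h' | h'
  · exact h4 ((pow_eq_zero_iff (two_ne_zero)).mp h')
  · exact h6 h'

theorem ldl_mdiff_D_kleinJ : MDiff (Dd kleinJ : ℍ → ℂ) :=
  normalizedDerivOfComplex_mdifferentiable kleinJ_mdiff

/-- pointwise value of `br_an` on a product -/
theorem ldl_an_mul (N : ℕ) [NeZero N] (x y : A0 N) (z : ℍ) :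
    ((br_an N (x * y) : jdAlgebra N) : ℍ → ℂ) z
      = ((br_an N x : jdAlgebra N) : ℍ → ℂ) z * ((br_an N y : jdAlgebra N) : ℍ → ℂ) z := by
  rw [map_mul]
  rfl

/-- pointwise value of `br_an` on a finite product -/
theorem ldl_an_prod (N : ℕ) [NeZero N] {I : Type*} (s : Finset I) (x : I → A0 N) (z : ℍ) :
    ((br_an N (∏ i ∈ s, x i) : jdAlgebra N) : ℍ → ℂ) z
      = ∏ i ∈ s, ((br_an N (x i) : jdAlgebra N) : ℍ → ℂ) z := by
  classical
  induction s using Finset.induction_on with
  | empty =>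
    rw [Finset.prod_empty, Finset.prod_empty, map_one]
    rfl
  | insert a s ha ih =>
    rw [Finset.prod_insert ha, Finset.prod_insert ha, ldl_an_mul, ih]

theorem ldl_linearIndependent (N : ℕ) [NeZero N] {r : ℕ} (a b : Fin r → A0 N)
    (hb : ∀ i, b i ≠ 0) (f : Fin r → CuspForm (Gamma0 N) 2)
    (hf : ∀ i z, f i z * ((br_an N (b i) : jdAlgebra N) : ℍ → ℂ) z
      = ((br_an N (a i) : jdAlgebra N) : ℍ → ℂ) z * Dd kleinJ z)
    (hli : LinearIndependent Kbar
      (fun i => algebraMap (A0 N) (Fbar N) (a i) / algebraMap (A0 N) (Fbar N) (b i))) :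
    LinearIndependent ℂ f := by
  classical
  rw [Fintype.linearIndependent_iff]
  intro c hc
  by_contra hne
  obtain ⟨i0, hi0⟩ := not_forall.mp hne
  -- cleared numerators
  set Aa : Fin r → A0 N := fun i => a i * ∏ j ∈ Finset.univ.erase i, b j with hAa
  -- pointwise relation
  have hpt : ∀ z : ℍ, ∑ i, c i * f i z = 0 := by
    intro z
    have h1 := congrArg (fun g : CuspForm (Gamma0 N) 2 => (g : ℍ → ℂ) z) hc
    simpa [FunLike.coe_sum, FunLike.coe_smul, Finset.sum_apply] using h1
  have hprod : ∀ z : ℍ, Dd kleinJ z *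
      ∑ i, c i * ((br_an N (Aa i) : jdAlgebra N) : ℍ → ℂ) z = 0 := by
    intro z
    have h2 : Dd kleinJ z * ∑ i, c i * ((br_an N (Aa i) : jdAlgebra N) : ℍ → ℂ) z
        = (∑ i, c i * f i z) * ∏ j, ((br_an N (b j) : jdAlgebra N) : ℍ → ℂ) z := by
      rw [Finset.mul_sum, Finset.sum_mul]
      refine Finset.sum_congr rfl fun i _ => ?_
      rw [hAa]
      simp only
      rw [ldl_an_mul, ldl_an_prod, ← Finset.mul_prod_erase Finset.univ _ (Finset.mem_univ i)]
      have := hf i z
      linear_combination (-(c i) * ∏ j ∈ Finset.univ.erase i,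
        ((br_an N (b j) : jdAlgebra N) : ℍ → ℂ) z) * this
    rw [h2, hpt z, zero_mul]
  -- the function `G := Σ c_i an(Aa_i)` vanishes identically
  set G : ℍ → ℂ := ∑ i, (fun _ => c i) * ((br_an N (Aa i) : jdAlgebra N) : ℍ → ℂ) with hG
  have hGL : br_HasLaurentQ G (∑ i, HahnSeries.C (c i) *
      ModularCurve.coeffMap (br_iota : Kbar →+* ℂ) ((Aa i : A0 N) : LaurentSeries Kbar)) :=
    br_HasLaurentQ.sum Finset.univ fun i _ => (br_HasLaurentQ.const (c i)).mul (br_an_spec N (Aa i))
  have hG0 : G = 0 := by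
    have hmul : (Dd kleinJ : ℍ → ℂ) * G = 0 := by
      ext z
      have := hprod z
      simpa [hG, Finset.sum_apply] using this
    rcases (UpperHalfPlane.mul_eq_zero_iff ldl_mdiff_D_kleinJ hGL.mdiff).mp hmul with h | h
    · exact absurd h ldl_D_kleinJ_ne_zero
    · exact h
  have hL0 := hGL.eq_zero_iff.mp hG0
  obtain ⟨μ, hμ0, hμ⟩ := br_exists_rel_of_complex_rel Finset.univ
    (fun i => ((Aa i : A0 N) : LaurentSeries Kbar)) c i0 hi0 hL0
  -- contradiction with `hli`
  rw [Fintype.linearIndependent_iff] at hli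
  refine hμ0 (hli μ ?_ i0)
  -- in the field `Fbar N`
  set P : Fbar N := ∏ j, algebraMap (A0 N) (Fbar N) (b j) with hP
  have hP0 : P ≠ 0 := by
    rw [hP, Finset.prod_ne_zero_iff]
    intro j _
    exact (map_ne_zero_iff _ (FaithfulSMul.algebraMap_injective (A0 N) (Fbar N))).mpr (hb j)
  have hb0 : ∀ i, algebraMap (A0 N) (Fbar N) (b i) ≠ 0 := fun j =>
    (map_ne_zero_iff _ (FaithfulSMul.algebraMap_injective (A0 N) (Fbar N))).mpr (hb j)
  have hrel : ∑ i, μ i • algebraMap (A0 N) (Fbar N) (Aa i) = 0 := by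
    apply Subtype.ext
    rw [IntermediateField.coe_sum, IntermediateField.coe_zero, ← hμ]
    refine Finset.sum_congr rfl fun i _ => ?_
    rw [IntermediateField.coe_smul, br_algebraMap_A0F, Algebra.smul_def]
  have hkey : (∑ i, μ i • (algebraMap (A0 N) (Fbar N) (a i) / algebraMap (A0 N) (Fbar N) (b i))) * P
      = 0 := by
    rw [← hrel, Finset.sum_mul]
    refine Finset.sum_congr rfl fun i _ => ?_
    rw [hAa]
    simp only
    rw [map_mul, map_prod, smul_mul_assoc, hP,
      ← Finset.mul_prod_erase Finset.univ _ (Finset.mem_univ i)]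
    congr 1
    field_simp [hb0 i]
  exact (mul_eq_zero.mp hkey).resolve_right hP0

end Fermat.Agent.S20
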