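/-
M3 Part B, (L-dict) block LD2-cusp: a differential `h • dJ` of `Fbar N / Kbar` which is regular
at the places over `J = ∞` has, along every cusp (every `SL(2,ℤ)`-translate), a Laurent germ in
`s = exp(2πi z / N)` of order `≥ N + 1`.  In terms of `h = a / b` with `a b : A0 N`:
`order (b^an ∘ γ) + N + 1 ≤ order (a^an ∘ γ)`.
-/
import Mathlib
import Fermat.Agent.S24.FamilyInfty
import Fermat.Agent.S24.Bridge.Degree
import Fermat.Agent.S24.Hurwitz.Interface
import Fermat.Agent.S24.PlacesOrbits.PlaceOfEmb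

set_option autoImplicit false

open UpperHalfPlane AlgebraicCurve KaehlerDifferential IntermediateField
open scoped MatrixGroups
open Fermat.Agent.S24.Br

namespace Fermat.Agent.S20

open Fermat.Agent.S24

variable (N : ℕ) [NeZero N]

/-- the embedding at the cusp attached to `γ`: `a ↦` germ of `a^an ∘ γ` -/
theorem ldc_phi_algebraMap (γ : SL(2, ℤ)) (a : A0 N) :
    fi_phi N ((γ⁻¹ : SL(2, ℤ)) : Comb.Q N) (algebraMap (A0 N) (Fbar N) a)
      = fi_germ N (fun z => fi_an N a (γ • z)) := by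
  rw [fi_phi, fam_phi_mk_algebraMap, inv_inv]

theorem ldc_nonconst (x : Comb.Q N) : ∃ f : Fbar N, 0 < po_ord (fi_phi N x) f := by
  refine ⟨(ff_jF N)⁻¹, ?_⟩
  rw [po_ord_def, map_inv₀, fi_phi_j, fi_order_inv]
  exact_mod_cast Nat.pos_of_ne_zero (NeZero.ne N)

/-- transcendence of `J = ff_jF N` over `Kbar` -/
theorem ldc_jF_transcendental : Transcendental Kbar (ff_jF N) := by
  have := br_jBar_transcendental N
  rwa [br_jBar_eq_barGenF] at this

theorem ldc_finiteDimensional : FiniteDimensional Kbar⟮ff_jF N⟯ (Fbar N) := by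
  have := br_finiteDimensional N
  rwa [br_jBar_eq_barGenF] at this

set_option synthInstance.maxHeartbeats 400000 in
/-- **regularity at the places over `∞` bounds the cusp orders**: if `h • dJ` is regular at
every pole of `J`, every cusp embedding sends `h` to a series of order `≥ N + 1`. -/
theorem ldc_order_ge (h : Fbar N) (hh : h ≠ 0)
    (hreg : ∀ v : Place Kbar (Fbar N), v.ord (ff_jF N) < 0 →
      0 ≤ v.ordDifferential (h • D Kbar (Fbar N) (ff_jF N))) (x : Comb.Q N) :
    (N : ℤ) + 1 ≤ po_ord (fi_phi N x) h := by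
  have hφ := ldc_nonconst N x
  obtain ⟨ϖ, hϖ⟩ := IsDiscreteValuationRing.exists_irreducible
    (po_place (fi_phi N x) hφ).toValuationSubring
  have hg := po_ord_irreducible_pos (fi_phi N x) hϖ
  have hJ := po_ord_eq_mul_ord (fi_phi N x) hφ hϖ (ff_jF N)
  have hJ' : po_ord (fi_phi N x) (ff_jF N) = -(N : ℤ) := by
    rw [po_ord_def, fi_phi_j, fi_order_germ_kleinJ]
  have hN : (0 : ℤ) < N := by exact_mod_cast Nat.pos_of_ne_zero (NeZero.ne N)
  have hvJ : (po_place (fi_phi N x) hφ).ord (ff_jF N) < 0 := by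
    by_contra hcon
    have : 0 ≤ po_ord (fi_phi N x) (ϖ : Fbar N) * (po_place (fi_phi N x) hφ).ord (ff_jF N) :=
      mul_nonneg hg.le (not_lt.mp hcon)
    omega
  have hx := ldc_jF_transcendental N
  have := ldc_finiteDimensional N
  have h1 := hreg _ hvJ
  rw [hw_ordDifferential_smul hx _ hh (hw_D_ne_zero hx), hw_ordDifferential_D hx _ hvJ.ne] at h1
  have hh' := po_ord_eq_mul_ord (fi_phi N x) hφ hϖ h
  nlinarith

set_option synthInstance.maxHeartbeats 400000 in
/-- **LD2-cusp**: if `ω = (a / b) • dJ` is regular at the places over `J = ∞`, then along every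
cusp `order (b^an ∘ γ) + N + 1 ≤ order (a^an ∘ γ)` (orders of the Laurent germs in
`s = exp(2πi z / N)`). -/
theorem ldc_cusp_order (a b : A0 N) (ha : a ≠ 0) (hb : b ≠ 0)
    (hreg : ∀ v : Place Kbar (Fbar N), v.ord (ff_jF N) < 0 →
      0 ≤ v.ordDifferential ((algebraMap (A0 N) (Fbar N) a / algebraMap (A0 N) (Fbar N) b)
        • D Kbar (Fbar N) (ff_jF N))) (γ : SL(2, ℤ)) :
    (fi_germ N (fun z => ((br_an N b : jdAlgebra N) : ℍ → ℂ) (γ • z))).order + N + 1
      ≤ (fi_germ N (fun z => ((br_an N a : jdAlgebra N) : ℍ → ℂ) (γ • z))).order := by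
  have hinj : Function.Injective (algebraMap (A0 N) (Fbar N)) :=
    FaithfulSMul.algebraMap_injective _ _
  have ha' : algebraMap (A0 N) (Fbar N) a ≠ 0 := fun h => ha (hinj (h.trans (map_zero _).symm))
  have hb' : algebraMap (A0 N) (Fbar N) b ≠ 0 := fun h => hb (hinj (h.trans (map_zero _).symm))
  have key := ldc_order_ge N _ (div_ne_zero ha' hb') hreg ((γ⁻¹ : SL(2, ℤ)) : Comb.Q N)
  rw [div_eq_mul_inv, po_ord_mul _ ha' (inv_ne_zero hb'), po_ord_inv, po_ord_def, po_ord_def,
    ldc_phi_algebraMap, ldc_phi_algebraMap] at key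
  have e : ∀ c : A0 N, (fun z => fi_an N c (γ • z))
      = fun z => ((br_an N c : jdAlgebra N) : ℍ → ℂ) (γ • z) := fun _ => rfl
  rw [e, e] at key
  omega

end Fermat.Agent.S20
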