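/-
M3 part B (S20): a differential `(a / b) dj` of the function field of `X₀(N)` over `Q̄` which is
regular at the places where `j` is finite has, at every point `z0` of the upper half plane, the
analytic orders required by `ld_exists_cuspForm`.
-/
import Mathlib
import Fermat.Agent.S24.Bridge.Degree
import Fermat.Agent.S24.Hurwitz.Interface
import Fermat.Agent.S24.PlacesOrbits.PlaceOfEmb

set_option autoImplicit false

open UpperHalfPlane Filter Topology Function
open scoped Manifold MatrixGroups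
open AlgebraicCurve KaehlerDifferential

namespace Fermat.Agent.S20

open Fermat.Agent.S24
open Fermat.Agent.S24.Br

variable (N : ℕ) [NeZero N]

theorem ld_ofPowerSeries_order_nonneg (x : PowerSeries ℂ) :
    0 ≤ (HahnSeries.ofPowerSeries ℤ ℂ x).order := by
  by_contra h
  push Not at h
  have hx : HahnSeries.ofPowerSeries ℤ ℂ x ≠ 0 := by
    intro h0
    rw [h0, HahnSeries.order_zero] at h
    exact lt_irrefl _ h
  exact (HahnSeries.coeff_order_eq_zero.not.mpr hx) (ff_ofPowerSeries_coeff_neg x h)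

/-- the embedding attached to the trivial coset at `z0` -/
noncomputable def ld_phi1 (z0 : ℍ) : Fbar N →ₐ[Kbar] LaurentSeries ℂ :=
  ff_phi N z0 ((1 : SL(2, ℤ)) : Comb.Q N)

theorem ld_phi1_algebraMap (z0 : ℍ) (a : A0 N) :
    ld_phi1 N z0 (algebraMap (A0 N) (Fbar N) a) = ff_germ z0 (ff_an N a) := by
  rw [ld_phi1, ff_phi, fam_phi_mk_algebraMap]
  simp only [inv_one, one_smul]

theorem ld_ff_an_ne_zero {a : A0 N} (ha : a ≠ 0) : ∃ z, ff_an N a z ≠ 0 := by
  by_contra h
  push Not at h
  apply ha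
  apply (ff_isRealisation N).inj
  rw [map_zero]
  exact funext h

theorem ld_mdiff_ff_an (a : A0 N) : MDiff (ff_an N a) := (br_an_isWeakModFun N a).mdiff

/-- the order of `a` along the embedding at `z0` is the analytic order of `a^an` at `z0` -/
theorem ld_po_ord_algebraMap (z0 : ℍ) {a : A0 N} (ha : a ≠ 0) :
    ∃ n : ℕ, analyticOrderAt (ff_an N a ∘ ofComplex) (z0 : ℂ) = n ∧
      po_ord (ld_phi1 N z0) (algebraMap (A0 N) (Fbar N) a) = n := by
  obtain ⟨z1, hz1⟩ := ld_ff_an_ne_zero N ha
  obtain ⟨n, hn⟩ := ENat.ne_top_iff_exists.mp (jl_order_ne_top (ld_mdiff_ff_an N a) hz1 z0)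
  refine ⟨n, hn.symm, ?_⟩
  rw [po_ord_def, ld_phi1_algebraMap]
  refine ff_ofPowerSeries_order _ ?_
  rw [gm_taylor_order z0 (ld_mdiff_ff_an N a), ← hn]

theorem ld_phi_sub_const (z0 : ℍ) (c : Kbar) (x : Comb.Q N) :
    ff_phi N z0 x (ff_jF N - algebraMap Kbar (Fbar N) c) =
      ff_germ z0 (fun z => kleinJ z - br_iota c) := by
  have h1 : ff_jF N - algebraMap Kbar (Fbar N) c =
      algebraMap (A0 N) (Fbar N) (ff_j1 N - algebraMap Kbar (A0 N) c) := by
    rw [map_sub, ← IsScalarTower.algebraMap_apply]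
    rfl
  have h2 : ff_an N (ff_j1 N - algebraMap Kbar (A0 N) c) = fun z => kleinJ z - br_iota c := by
    rw [map_sub, ff_an_j1, (ff_isRealisation N).const c]
    ext z
    simp only [Pi.sub_apply, br_algebraMap_QbarC]
  rw [h1, ff_phi, fam_phi_of_invariant (ff_isGerm z0) (ff_isRealisation N) _ _ x, h2]
  intro g z
  rw [h2]
  simp only [kleinJ_smul]

theorem ld_germ_coeff_zero (z0 : ℍ) {f : ℍ → ℂ} (hf : MDiff f) :
    (ff_germ z0 f).coeff 0 = f z0 := by
  have h := HahnSeries.ofPowerSeries_apply_coeff (Γ := ℤ) (gm_taylor z0 f) 0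
  rw [Nat.cast_zero] at h
  rw [ff_germ, h, gm_taylor_coeff_zero z0 hf]

theorem ld_one_le_ordJ (z0 : ℍ) : 1 ≤ jl_ordJ z0 := by
  rcases jl_ordJ_cases z0 with h | h | h
  · rw [h.2.2]
  · rw [h.2]; norm_num
  · rw [h.2]; norm_num

/-- **(LD2, finite part)**: regularity of `(a / b) dj` at the places where `j` is finite gives
the order inequality at every point of the upper half plane -/
theorem ld_fin_order (a b : A0 N) (hb : b ≠ 0)
    (hreg : ∀ v : Place Kbar (Fbar N), 0 ≤ v.ord (ff_jF N) →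
      0 ≤ v.ordDifferential ((algebraMap (A0 N) (Fbar N) a / algebraMap (A0 N) (Fbar N) b) •
        D Kbar (Fbar N) (ff_jF N)))
    (z0 : ℍ) :
    analyticOrderAt (ff_an N b ∘ ofComplex) (z0 : ℂ) + 1 ≤
      analyticOrderAt (ff_an N a ∘ ofComplex) (z0 : ℂ) + jl_ordJ z0 := by
  rcases eq_or_ne a 0 with rfl | ha
  · have h0 : analyticOrderAt (ff_an N 0 ∘ ofComplex) (z0 : ℂ) = ⊤ := by
      rw [analyticOrderAt_eq_top, map_zero]
      exact Eventually.of_forall fun w => rfl
    rw [h0, top_add]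
    exact le_top
  set φ := ld_phi1 N z0 with hφdef
  set J := ff_jF N with hJ
  have hx : Transcendental Kbar J := an_transcendental N
  obtain ⟨na, hna, hpa⟩ := ld_po_ord_algebraMap N z0 ha
  obtain ⟨nb, hnb, hpb⟩ := ld_po_ord_algebraMap N z0 hb
  rw [hna, hnb]
  by_cases hφ : ∃ f : Fbar N, 0 < po_ord φ f
  · -- `φ` defines a place
    set v : Place Kbar (Fbar N) := po_place φ hφ with hv
    obtain ⟨ϖ, hϖ⟩ := IsDiscreteValuationRing.exists_irreducible v.toValuationSubring
    have hg0 : 0 < po_ord φ ((ϖ : po_valSubring φ) : Fbar N) := po_ord_irreducible_pos φ hϖ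
    have hord : ∀ f : Fbar N, po_ord φ f = po_ord φ ((ϖ : po_valSubring φ) : Fbar N) * v.ord f :=
      fun f => po_ord_eq_mul_ord φ hφ hϖ f
    set g0 := po_ord φ ((ϖ : po_valSubring φ) : Fbar N) with hg0def
    -- `j` is regular at `v`
    have hφJ : φ J = ff_germ z0 kleinJ := by
      have h := ld_phi_sub_const N z0 0 ((1 : SL(2, ℤ)) : Comb.Q N)
      simp only [map_zero, sub_zero] at h
      exact h
    have hJ0 : J ≠ 0 := by
      intro h
      exact hx (h ▸ isAlgebraic_zero)
    have hJmem : J ∈ v.toValuationSubring := by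
      show 0 ≤ po_ord φ J
      rw [po_ord_def, hφJ]
      exact ld_ofPowerSeries_order_nonneg _
    have hJord : 0 ≤ v.ord J := (hw_mem_iff_ord_nonneg v hJ0).mp hJmem
    -- the value of `j` at `v`
    obtain ⟨c, hc⟩ := hw_exists_const J v hJmem
    have hc' : 0 < v.ord (J - algebraMap Kbar (Fbar N) c) := by
      rcases hc with hc | hc
      · exact absurd (hc ▸ isAlgebraic_algebraMap c) hx
      · exact hc
    have hpos : 0 < po_ord φ (J - algebraMap Kbar (Fbar N) c) := by
      rw [hord]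
      exact mul_pos hg0 hc'
    have hφc : φ (J - algebraMap Kbar (Fbar N) c) = ff_germ z0 (fun z => kleinJ z - br_iota c) :=
      ld_phi_sub_const N z0 c _
    have hcz : br_iota c = kleinJ z0 := by
      have h1 : (φ (J - algebraMap Kbar (Fbar N) c)).coeff 0 = 0 :=
        HahnSeries.coeff_eq_zero_of_lt_order hpos
      have hmd : MDiff (fun z => kleinJ z - br_iota c) := kleinJ_mdiff.sub mdifferentiable_const
      rw [hφc, ld_germ_coeff_zero z0 hmd] at h1
      exact (sub_eq_zero.mp h1).symm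
    -- the local degree of `j`
    obtain ⟨e, he⟩ : ∃ e : ℕ, jl_ordJ z0 = e := by
      rcases jl_ordJ_cases z0 with h | h | h
      · exact ⟨1, h.2.2⟩
      · exact ⟨3, h.2⟩
      · exact ⟨2, h.2⟩
    have hpe : po_ord φ (J - algebraMap Kbar (Fbar N) c) = e := by
      rw [po_ord_def]
      show (ff_phi N z0 _ (ff_jF N - algebraMap Kbar (Fbar N) c)).order = e
      rw [ff_phi_sub N z0 c hcz]
      exact ff_order_germ z0 he
    -- regularity of the differential
    have hA0 : algebraMap (A0 N) (Fbar N) a ≠ 0 := by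
      rw [Ne, FaithfulSMul.algebraMap_eq_zero_iff]
      exact ha
    have hB0 : algebraMap (A0 N) (Fbar N) b ≠ 0 := by
      rw [Ne, FaithfulSMul.algebraMap_eq_zero_iff]
      exact hb
    have hh0 : algebraMap (A0 N) (Fbar N) a / algebraMap (A0 N) (Fbar N) b ≠ 0 :=
      div_ne_zero hA0 hB0
    have h1 := hreg v hJord
    rw [hw_ordDifferential_smul hx v hh0 (hw_D_ne_zero hx),
      hw_ordDifferential_D_sub_const hx v c hc'.ne'] at h1
    have h1' : 0 ≤ v.ord (algebraMap (A0 N) (Fbar N) a / algebraMap (A0 N) (Fbar N) b) +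
        (v.ord (J - algebraMap Kbar (Fbar N) c) - 1) := h1
    have h2 : po_ord φ (algebraMap (A0 N) (Fbar N) a / algebraMap (A0 N) (Fbar N) b) =
        (na : ℤ) - nb := by
      rw [div_eq_mul_inv, po_ord_mul φ hA0 (inv_ne_zero hB0), po_ord_inv, hpa, hpb]
      ring
    have h3 := hord (algebraMap (A0 N) (Fbar N) a / algebraMap (A0 N) (Fbar N) b)
    have h4 := hord (J - algebraMap Kbar (Fbar N) c)
    rw [h2] at h3
    rw [hpe] at h4
    have h5 : (1 : ℤ) ≤ (na : ℤ) - nb + e := by
      have : g0 * 1 ≤ g0 * (v.ord (algebraMap (A0 N) (Fbar N) a / algebraMap (A0 N) (Fbar N) b) +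
          v.ord (J - algebraMap Kbar (Fbar N) c)) :=
        mul_le_mul_of_nonneg_left (by omega) hg0.le
      rw [mul_add, ← h3, ← h4] at this
      omega
    rw [he]
    have h6 : nb + 1 ≤ na + e := by omega
    exact_mod_cast h6
  · -- `φ` is trivial: nothing vanishes at `z0`
    push Not at hφ
    have h1 := hφ (algebraMap (A0 N) (Fbar N) b)
    rw [hpb] at h1
    have hnb0 : nb = 0 := by omega
    rw [hnb0, Nat.cast_zero, zero_add]
    exact le_trans (ld_one_le_ordJ z0) le_add_self

end Fermat.Agent.S20
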