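/-
M3 part B (S20): the dictionary "regular differentials of `Q̄(X₀(N))` ↦ weight `2` cusp forms
of `Γ₀(N)`".  `Q̄`-linearly independent functions `h i` such that all `h i • dj` are regular give
`ℂ`-linearly independent cusp forms `h i^an · D j`.
-/
import Mathlib
import Fermat.Agent.S20.Dict.CuspForm
import Fermat.Agent.S20.Dict.RegularFinite
import Fermat.Agent.S20.Dict.RegularCusp
import Fermat.Agent.S20.Dict.LinIndep

set_option autoImplicit false

open UpperHalfPlane ModularForm CongruenceSubgroup
open scoped MatrixGroups Manifold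
open AlgebraicCurve

namespace Fermat.Agent.S20

open Fermat.Agent.S24 Fermat.Agent.S24.Br

set_option synthInstance.maxHeartbeats 400000 in
/-- **(L-dict)** the dictionary between regular differentials and cusp forms of weight `2` -/
theorem ld_exists_linearIndependent (N : ℕ) [NeZero N] {r : ℕ} (h : Fin r → Fbar N)
    (hli : LinearIndependent Kbar h)
    (hreg : ∀ i (v : Place Kbar (Fbar N)),
      0 ≤ v.ordDifferential (h i • KaehlerDifferential.D Kbar (Fbar N) (ff_jF N))) :
    ∃ f : Fin r → CuspForm (Gamma0 N) 2, LinearIndependent ℂ f := by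
  -- write `h i = a i / b i`
  have hfrac : ∀ i, ∃ ab : A0 N × A0 N, ab.2 ≠ 0 ∧
      algebraMap (A0 N) (Fbar N) ab.1 / algebraMap (A0 N) (Fbar N) ab.2 = h i := by
    intro i
    obtain ⟨x, y, hy, hxy⟩ := IsFractionRing.div_surjective (A := A0 N) (h i)
    exact ⟨(x, y), nonZeroDivisors.ne_zero hy, hxy⟩
  choose ab hab using hfrac
  have hb : ∀ i, (ab i).2 ≠ 0 := fun i => (hab i).1
  have hh : ∀ i, algebraMap (A0 N) (Fbar N) (ab i).1 / algebraMap (A0 N) (Fbar N) (ab i).2 = h i :=
    fun i => (hab i).2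
  have ha : ∀ i, (ab i).1 ≠ 0 := by
    intro i hai
    have h0 := hli.ne_zero i
    rw [← hh i, hai, map_zero, zero_div] at h0
    exact h0 rfl
  -- the cusp forms
  have hex : ∀ i, ∃ f : CuspForm (Gamma0 N) 2, ∀ z,
      f z * ((br_an N (ab i).2 : jdAlgebra N) : ℍ → ℂ) z =
        ((br_an N (ab i).1 : jdAlgebra N) : ℍ → ℂ) z *
          Derivative.normalizedDerivOfComplex kleinJ z := by
    intro i
    have hB0 : ((br_an N (ab i).2 : jdAlgebra N) : ℍ → ℂ) ≠ 0 := by
      obtain ⟨z, hz⟩ := ld_ff_an_ne_zero N (hb i)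
      intro h0
      apply hz
      have := congrFun h0 z
      exact this
    refine ld_exists_cuspForm (br_an_isWeakModFun N (ab i).1) (br_an_isWeakModFun N (ab i).2)
      hB0 ?_ ?_
    · exact ld_fin_order N (ab i).1 (ab i).2 (hb i) (fun v _ => by rw [hh i]; exact hreg i v)
    · exact fun γ => ldc_cusp_order N (ab i).1 (ab i).2 (ha i) (hb i)
        (fun v _ => by rw [hh i]; exact hreg i v) γ
  choose f hf using hex
  refine ⟨f, ldl_linearIndependent N (fun i => (ab i).1) (fun i => (ab i).2) hb f hf ?_⟩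
  have he : (fun i => algebraMap (A0 N) (Fbar N) (ab i).1 / algebraMap (A0 N) (Fbar N) (ab i).2)
      = h := funext hh
  rw [he]
  exact hli

end Fermat.Agent.S20
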